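import Fermat.Agent.JarnikIdentity.Records
import Mathlib.Algebra.Order.Round
import Mathlib.Data.Finset.Lattice.Fold

/-!
# Simultaneous approximations and linear forms of two numbers

The two error functions, and the pigeonhole principle in the planes orthogonal to an approximation
and to a linear form.
-/

set_option autoImplicit false

noncomputable section

open Filter Topology

namespace FA.JarnikIdentity

/-- `1, θ1, θ2` are linearly independent over the rationals. -/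
def Indep (θ1 θ2 : ℝ) : Prop :=
  ∀ a b c : ℤ, (a : ℝ) + b * θ1 + c * θ2 = 0 → a = 0 ∧ b = 0 ∧ c = 0

/-- The error of the best simultaneous approximation with denominator `q`. -/
def serr (θ1 θ2 : ℝ) (q : ℕ) : ℝ :=
  max |(q : ℝ) * θ1 - round ((q : ℝ) * θ1)| |(q : ℝ) * θ2 - round ((q : ℝ) * θ2)|

theorem serr_comm (θ1 θ2 : ℝ) (q : ℕ) : serr θ2 θ1 q = serr θ1 θ2 q := max_comm _ _

theorem serr_nonneg (θ1 θ2 : ℝ) (q : ℕ) : 0 ≤ serr θ1 θ2 q :=
  (abs_nonneg _).trans (le_max_left _ _)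

theorem serr_pos {θ1 θ2 : ℝ} (hθ : Indep θ1 θ2) {q : ℕ} (hq : 1 ≤ q) : 0 < serr θ1 θ2 q := by
  refine lt_of_lt_of_le (abs_pos.2 fun h => ?_) (le_max_left _ _)
  have := hθ (-round ((q : ℝ) * θ1)) q 0 (by push_cast; linarith)
  omega

/-- The nearest point is at least as good as any other. -/
theorem serr_le_max (θ1 θ2 : ℝ) (q p1 p2 : ℤ) :
    serr θ1 θ2 q.natAbs ≤ max |(q : ℝ) * θ1 - p1| |(q : ℝ) * θ2 - p2| := by
  have key : ∀ (t : ℝ) (y : ℤ), |(q.natAbs : ℝ) * t - round ((q.natAbs : ℝ) * t)| ≤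
      |(q : ℝ) * t - y| := fun t y => by
    rw [Nat.cast_natAbs, Int.cast_abs]
    rcases abs_choice (q : ℝ) with h | h <;> rw [h]
    · exact round_le _ y
    · refine (round_le _ (-y)).trans_eq ?_
      rw [Int.cast_neg, ← abs_neg]
      congr 1
      ring
  exact max_le_max (key θ1 p1) (key θ2 p2)

/-- The linear form. -/
def lin (θ1 θ2 : ℝ) (a b c : ℤ) : ℝ := a + b * θ1 + c * θ2

/-- The height of a linear form. -/
def height (b c : ℤ) : ℕ := max b.natAbs c.natAbs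

theorem abs_le_height (b c : ℤ) : |(b : ℝ)| ≤ height b c ∧ |(c : ℝ)| ≤ height b c := by
  rw [← Int.cast_abs, ← Int.cast_abs, ← Nat.cast_natAbs, ← Nat.cast_natAbs]
  exact ⟨Nat.cast_le.2 (le_max_left _ _), Nat.cast_le.2 (le_max_right _ _)⟩

theorem height_le {b c : ℤ} {X : ℝ} (hb : |(b : ℝ)| ≤ X) (hc : |(c : ℝ)| ≤ X) :
    (height b c : ℝ) ≤ X := by
  rw [height, Nat.cast_max, Nat.cast_natAbs, Nat.cast_natAbs, Int.cast_abs, Int.cast_abs]
  exact max_le hb hc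

theorem one_le_height {b c : ℤ} (h : b ≠ 0 ∨ c ≠ 0) : 1 ≤ height b c := by
  unfold height
  omega

/-- The integer pairs of height `M`. -/
def shell (M : ℕ) : Finset (ℤ × ℤ) :=
  (Finset.Icc (-(M : ℤ)) M ×ˢ Finset.Icc (-(M : ℤ)) M).filter fun p => height p.1 p.2 = M

theorem mem_shell {M : ℕ} {p : ℤ × ℤ} : p ∈ shell M ↔ height p.1 p.2 = M := by
  simp only [shell, height, Finset.mem_filter, Finset.mem_product, Finset.mem_Icc]
  omega

theorem shell_nonempty (M : ℕ) : (shell M).Nonempty :=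
  ⟨((M : ℤ), 0), mem_shell.2 (by simp [height])⟩

/-- The smallest value of a linear form of height `M`. -/
def ferr (θ1 θ2 : ℝ) (M : ℕ) : ℝ :=
  (shell M).inf' (shell_nonempty M) fun p =>
    |(p.1 : ℝ) * θ1 + p.2 * θ2 - round ((p.1 : ℝ) * θ1 + p.2 * θ2)|

theorem ferr_le (θ1 θ2 : ℝ) (a b c : ℤ) : ferr θ1 θ2 (height b c) ≤ |lin θ1 θ2 a b c| := by
  refine (Finset.inf'_le _ (mem_shell.2 (rfl : height (b, c).1 (b, c).2 = _))).trans ?_
  refine (round_le _ (-a)).trans_eq (congrArg abs ?_)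
  simp only [lin, Int.cast_neg]
  ring

theorem exists_ferr_eq (θ1 θ2 : ℝ) (M : ℕ) :
    ∃ a b c : ℤ, height b c = M ∧ |lin θ1 θ2 a b c| = ferr θ1 θ2 M := by
  obtain ⟨p, hp, he⟩ := Finset.exists_mem_eq_inf' (shell_nonempty M) fun p : ℤ × ℤ =>
    |(p.1 : ℝ) * θ1 + p.2 * θ2 - round ((p.1 : ℝ) * θ1 + p.2 * θ2)|
  refine ⟨-round ((p.1 : ℝ) * θ1 + p.2 * θ2), p.1, p.2, mem_shell.1 hp,
    .trans (congrArg abs ?_) he.symm⟩
  simp only [lin, Int.cast_neg]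
  ring

theorem ferr_pos {θ1 θ2 : ℝ} (hθ : Indep θ1 θ2) {M : ℕ} (hM : 1 ≤ M) : 0 < ferr θ1 θ2 M := by
  obtain ⟨a, b, c, hh, he⟩ := exists_ferr_eq θ1 θ2 M
  rw [← he]
  refine abs_pos.2 fun h => ?_
  obtain ⟨-, hb, hc⟩ := hθ a b c h
  subst hb hc
  simp [height] at hh
  omega

/-- Pigeonhole: a class and an interval. -/
theorem exists_close {α γ : Type*} (s : Finset α) (t : Finset γ) (g : α → γ)
    (hg : ∀ x ∈ s, g x ∈ t) (f : α → ℝ) {lo W : ℝ} (hW : 0 < W)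
    (hf : ∀ x ∈ s, lo ≤ f x ∧ f x ≤ lo + W) {N : ℕ} (hN : 1 ≤ N)
    (hcard : t.card * (N + 1) < s.card) :
    ∃ x ∈ s, ∃ y ∈ s, x ≠ y ∧ g x = g y ∧ |f x - f y| ≤ W / N := by
  classical
  have hN0 : (0 : ℝ) < N := by exact_mod_cast hN
  obtain ⟨x, hx, y, hy, hne, heq⟩ := Finset.exists_ne_map_eq_of_card_lt_of_maps_to
    (t := t ×ˢ Finset.range (N + 1))
    (by rwa [Finset.card_product, Finset.card_range])
    (f := fun x => (g x, ⌊(f x - lo) * N / W⌋₊))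
    (fun x hx => Finset.mem_product.2 ⟨hg x hx, Finset.mem_range.2 (Nat.lt_succ_of_le
      (Nat.floor_le_of_le (by
        rw [div_le_iff₀ hW, mul_comm _ W]
        exact mul_le_mul_of_nonneg_right (by linarith [(hf x hx).2]) hN0.le)))⟩)
  obtain ⟨hgxy, hfl⟩ := Prod.mk.inj heq
  refine ⟨x, hx, y, hy, hne, hgxy, ?_⟩
  have key : ∀ z ∈ s, (⌊(f z - lo) * N / W⌋₊ : ℝ) ≤ (f z - lo) * N / W ∧
      (f z - lo) * N / W < (⌊(f z - lo) * N / W⌋₊ : ℝ) + 1 := fun z hz =>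
    ⟨Nat.floor_le (div_nonneg (mul_nonneg (by linarith [(hf z hz).1]) hN0.le) hW.le),
      Nat.lt_floor_add_one _⟩
  have h1 := key x hx
  have h2 := key y hy
  rw [hfl] at h1
  have h : |(f x - lo) * N / W - (f y - lo) * N / W| ≤ 1 :=
    abs_le.2 ⟨by linarith [h1.1, h2.2], by linarith [h1.2, h2.1]⟩
  rw [show (f x - lo) * N / W - (f y - lo) * N / W = (f x - f y) * (N / W) by ring, abs_mul,
    abs_of_pos (div_pos hN0 hW)] at h
  rw [le_div_iff₀ hN0]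
  calc |f x - f y| * N = |f x - f y| * (N / W) * W := by field_simp
    _ ≤ 1 * W := by gcongr
    _ = W := one_mul W

theorem fract_sub_fract (x y : ℝ) :
    Int.fract x - Int.fract y = x - y - ((⌊x⌋ - ⌊y⌋ : ℤ) : ℝ) := by
  simp only [Int.fract, Int.cast_sub]
  ring

theorem fract_mem (x : ℝ) : (0 : ℝ) ≤ Int.fract x ∧ Int.fract x ≤ 0 + 1 :=
  ⟨Int.fract_nonneg x, by linarith [Int.fract_lt_one x]⟩

/-- Dirichlet for simultaneous approximation. -/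
theorem dirichlet_simul (θ1 θ2 : ℝ) {n : ℕ} (hn : 1 ≤ n) :
    ∃ q, 1 ≤ q ∧ q ≤ n * (n + 1) ∧ serr θ1 θ2 q ≤ 1 / n := by
  have hn0 : (0 : ℝ) < n := by exact_mod_cast hn
  obtain ⟨x, hx, y, hy, hne, hg, hf⟩ := exists_close (Finset.range (n * (n + 1) + 1))
    (Finset.range n) (fun q => ⌊(n : ℝ) * Int.fract ((q : ℝ) * θ1)⌋₊)
    (fun q _ => Finset.mem_range.2 ((Nat.floor_lt
      (mul_nonneg hn0.le (Int.fract_nonneg _))).2
        (mul_lt_of_lt_one_right hn0 (Int.fract_lt_one _))))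
    (fun q => Int.fract ((q : ℝ) * θ2)) one_pos (fun q _ => fract_mem _) hn
    (by simp only [Finset.card_range]; omega)
  simp only [Finset.mem_range] at hx hy
  refine ⟨((x : ℤ) - y).natAbs, by omega, by omega, (serr_le_max θ1 θ2 ((x : ℤ) - y)
    (⌊(x : ℝ) * θ1⌋ - ⌊(y : ℝ) * θ1⌋) (⌊(x : ℝ) * θ2⌋ - ⌊(y : ℝ) * θ2⌋)).trans
      (max_le ?_ ?_)⟩
  · have h1 : |(n : ℝ) * Int.fract ((x : ℝ) * θ1) - n * Int.fract ((y : ℝ) * θ1)| ≤ 1 := by
      have a := Nat.floor_le (mul_nonneg hn0.le (Int.fract_nonneg ((x : ℝ) * θ1)))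
      have b := Nat.floor_le (mul_nonneg hn0.le (Int.fract_nonneg ((y : ℝ) * θ1)))
      have c := Nat.lt_floor_add_one ((n : ℝ) * Int.fract ((x : ℝ) * θ1))
      have d := Nat.lt_floor_add_one ((n : ℝ) * Int.fract ((y : ℝ) * θ1))
      rw [hg] at a c
      exact abs_le.2 ⟨by linarith, by linarith⟩
    rw [← mul_sub, abs_mul, Nat.abs_cast, fract_sub_fract] at h1
    rw [le_div_iff₀ hn0, mul_comm]
    push_cast at h1 ⊢
    rw [sub_mul]
    exact h1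
  · rw [fract_sub_fract] at hf
    push_cast at hf ⊢
    rw [sub_mul]
    exact hf

/-- Dirichlet for linear forms. -/
theorem dirichlet_form (θ1 θ2 : ℝ) {n : ℕ} (hn : 1 ≤ n) :
    ∃ M, 1 ≤ M ∧ M ≤ n ∧ ferr θ1 θ2 M ≤ 1 / (n : ℝ) ^ 2 := by
  obtain ⟨x, hx, y, hy, hne, -, hf⟩ := exists_close
    (Finset.range (n + 1) ×ˢ Finset.range (n + 1)) {()} (fun _ => ())
    (fun _ _ => Finset.mem_singleton_self _)
    (fun p => Int.fract ((p.1 : ℝ) * θ1 + p.2 * θ2)) one_pos (fun p _ => fract_mem _)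
    (N := n ^ 2) (Nat.one_le_pow _ _ hn)
    (by simp only [Finset.card_product, Finset.card_range, Finset.card_singleton]; nlinarith)
  simp only [Finset.mem_product, Finset.mem_range] at hx hy
  refine ⟨height ((x.1 : ℤ) - y.1) ((x.2 : ℤ) - y.2), one_le_height ?_, ?_,
    (ferr_le θ1 θ2 (-(⌊(x.1 : ℝ) * θ1 + x.2 * θ2⌋ - ⌊(y.1 : ℝ) * θ1 + y.2 * θ2⌋)) _ _).trans ?_⟩
  · by_contra! h
    exact hne (Prod.ext (by omega) (by omega))
  · unfold height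
    omega
  · rw [fract_sub_fract, Nat.cast_pow] at hf
    refine le_of_eq_of_le (congrArg abs ?_) hf
    simp only [lin]
    push_cast
    ring

/-- **Pigeonhole orthogonally to an approximation.** -/
theorem exists_form_of_approx {θ1 θ2 : ℝ} {q n : ℕ} {p1 p2 : ℤ} {ζ : ℝ} (hq : 1 ≤ q)
    (hn : 4 * q ≤ n ^ 2) (hζ : 0 < ζ) (h1 : |(q : ℝ) * θ1 - p1| ≤ ζ)
    (h2 : |(q : ℝ) * θ2 - p2| ≤ ζ) :
    ∃ M, 1 ≤ M ∧ M ≤ n ∧ ferr θ1 θ2 M ≤ 8 * ζ / n := by
  set u := (q : ℝ) * θ1 - p1 with hu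
  set v := (q : ℝ) * θ2 - p2 with hv
  have hn1 : 1 ≤ n := by
    rcases Nat.eq_zero_or_pos n with rfl | h
    · simp at hn
      omega
    · exact h
  have hn0 : (0 : ℝ) < n := by exact_mod_cast hn1
  have ht : 4 ≤ n ^ 2 / q := (Nat.le_div_iff_mul_le hq).2 hn
  have htq : (n ^ 2 / q) * q ≤ n ^ 2 := Nat.div_mul_le_self _ _
  have htq' : n ^ 2 < q * (n ^ 2 / q + 1) := Nat.lt_mul_div_succ _ hq
  set t := n ^ 2 / q
  obtain ⟨x, hx, y, hy, hne, hg, hf⟩ := exists_close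
    (Finset.range (n + 1) ×ˢ Finset.range (n + 1)) (Finset.range q)
    (fun p => (((p.1 : ℤ) * p1 + (p.2 : ℤ) * p2) % (q : ℤ)).toNat)
    (fun p _ => by
      have h0 := Int.emod_nonneg ((p.1 : ℤ) * p1 + (p.2 : ℤ) * p2) (b := (q : ℤ)) (by omega)
      have h := Int.emod_lt_of_pos ((p.1 : ℤ) * p1 + (p.2 : ℤ) * p2) (b := (q : ℤ)) (by omega)
      exact Finset.mem_range.2 (by omega))
    (fun p => (p.1 : ℝ) * u + p.2 * v) (lo := -(2 * n * ζ)) (W := 4 * n * ζ) (by positivity)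
    (fun p hp => by
      simp only [Finset.mem_product, Finset.mem_range] at hp
      have a : |(p.1 : ℝ) * u + p.2 * v| ≤ n * ζ + n * ζ := by
        refine (abs_add_le _ _).trans (add_le_add ?_ ?_) <;> rw [abs_mul, Nat.abs_cast]
        · exact mul_le_mul (Nat.cast_le.2 (by omega)) h1 (abs_nonneg _) hn0.le
        · exact mul_le_mul (Nat.cast_le.2 (by omega)) h2 (abs_nonneg _) hn0.le
      have := abs_le.1 a
      constructor <;> linarith)
    (N := t - 1) (by omega)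
    (by
      simp only [Finset.card_product, Finset.card_range]
      rw [Nat.sub_add_cancel (by omega), mul_comm]
      nlinarith)
  simp only [Finset.mem_product, Finset.mem_range] at hx hy
  have hmod : ((x.1 : ℤ) * p1 + (x.2 : ℤ) * p2) % (q : ℤ) =
      ((y.1 : ℤ) * p1 + (y.2 : ℤ) * p2) % (q : ℤ) := by
    have a := Int.emod_nonneg ((x.1 : ℤ) * p1 + (x.2 : ℤ) * p2) (b := (q : ℤ)) (by omega)
    have b := Int.emod_nonneg ((y.1 : ℤ) * p1 + (y.2 : ℤ) * p2) (b := (q : ℤ)) (by omega)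
    omega
  obtain ⟨k, hk⟩ := Int.dvd_of_emod_eq_zero (Int.emod_eq_emod_iff_emod_sub_eq_zero.1 hmod)
  refine ⟨height ((x.1 : ℤ) - y.1) ((x.2 : ℤ) - y.2), one_le_height ?_, ?_,
    (ferr_le θ1 θ2 (-k) _ _).trans ?_⟩
  · by_contra! h
    exact hne (Prod.ext (by omega) (by omega))
  · unfold height
    omega
  · have hq0 : (0 : ℝ) < q := by exact_mod_cast hq
    have hk' : (x.1 : ℝ) * p1 + x.2 * p2 - (y.1 * p1 + y.2 * p2) = q * k := by exact_mod_cast hk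
    have e : (x.1 : ℝ) * u + x.2 * v - (y.1 * u + y.2 * v) =
        q * lin θ1 θ2 (-k) ((x.1 : ℤ) - y.1) ((x.2 : ℤ) - y.2) := by
      simp only [lin, hu, hv]
      push_cast
      linear_combination -hk'
    rw [e, abs_mul, Nat.abs_cast] at hf
    have hN : ((t - 1 : ℕ) : ℝ) = (t : ℝ) - 1 := by
      rw [Nat.cast_sub (by omega)]
      simp
    rw [hN] at hf
    have ht' : (4 : ℝ) ≤ t := by exact_mod_cast ht
    have htq2 : (n : ℝ) ^ 2 ≤ q * ((t : ℝ) + 1) := by exact_mod_cast htq'.le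
    have hge : (n : ℝ) ^ 2 ≤ 2 * q * ((t : ℝ) - 1) := by
      linarith [mul_le_mul_of_nonneg_left (show (t : ℝ) + 1 ≤ 2 * ((t : ℝ) - 1) by linarith) hq0.le]
    rw [le_div_iff₀ (by linarith)] at hf
    rw [le_div_iff₀ hn0]
    have hl := mul_le_mul_of_nonneg_left hge
      (abs_nonneg (lin θ1 θ2 (-k) ((x.1 : ℤ) - y.1) ((x.2 : ℤ) - y.2)))
    nlinarith

theorem exists_approx_of_form_aux {θ1 θ2 : ℝ} {a b c : ℤ} {Q : ℕ} (hcb : c.natAbs ≤ b.natAbs)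
    (hb : 1 ≤ b.natAbs) (hQ : 4 * b.natAbs ≤ Q)
    (hQL : (Q : ℝ) ^ 2 * |lin θ1 θ2 a b c| ≤ (b.natAbs : ℝ) ^ 2) :
    ∃ q, 1 ≤ q ∧ q ≤ Q ∧ serr θ1 θ2 q ≤ 3 * (b.natAbs : ℝ) / Q := by
  have ht : 4 ≤ Q / b.natAbs := (Nat.le_div_iff_mul_le hb).2 hQ
  have htM : (Q / b.natAbs) * b.natAbs ≤ Q := Nat.div_mul_le_self _ _
  have htM' : Q < b.natAbs * (Q / b.natAbs + 1) := Nat.lt_mul_div_succ _ hb
  have hb0 : b ≠ 0 := by omega
  set t := Q / b.natAbs
  obtain ⟨x, hx, y, hy, hne, hg, hf⟩ := exists_close (Finset.range (Q + 1))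
    (Finset.range b.natAbs) (fun i : ℕ => ((a * i + c * ⌊(i : ℝ) * θ2⌋) % b).toNat)
    (fun i _ => by
      have h0 := Int.emod_nonneg (a * i + c * ⌊(i : ℝ) * θ2⌋) hb0
      have h := Int.emod_lt (a * i + c * ⌊(i : ℝ) * θ2⌋) hb0
      exact Finset.mem_range.2 (by omega))
    (fun i => Int.fract ((i : ℝ) * θ2)) one_pos (fun i _ => fract_mem _) (N := t - 1) (by omega)
    (by
      simp only [Finset.card_range]
      rw [Nat.sub_add_cancel (by omega), mul_comm]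
      omega)
  simp only [Finset.mem_range] at hx hy
  have hmod : (a * x + c * ⌊(x : ℝ) * θ2⌋) % b = (a * y + c * ⌊(y : ℝ) * θ2⌋) % b := by
    have u := Int.emod_nonneg (a * x + c * ⌊(x : ℝ) * θ2⌋) hb0
    have v := Int.emod_nonneg (a * y + c * ⌊(y : ℝ) * θ2⌋) hb0
    omega
  obtain ⟨k, hk⟩ := Int.dvd_of_emod_eq_zero (Int.emod_eq_emod_iff_emod_sub_eq_zero.1 hmod)
  refine ⟨((x : ℤ) - y).natAbs, by omega, by omega, (serr_le_max θ1 θ2 ((x : ℤ) - y)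
    (-k) (⌊(x : ℝ) * θ2⌋ - ⌊(y : ℝ) * θ2⌋)).trans ?_⟩
  set M : ℝ := (b.natAbs : ℝ) with hMdef
  have hM : M = |(b : ℝ)| := by rw [hMdef, Nat.cast_natAbs, Int.cast_abs]
  have hM0 : 0 < M := by
    rw [hMdef]
    exact_mod_cast hb
  have hcM : |(c : ℝ)| ≤ M := by
    rw [hMdef, ← Int.cast_abs, ← Nat.cast_natAbs]
    exact Nat.cast_le.2 hcb
  have hQ0 : (0 : ℝ) < Q := by exact_mod_cast (show 0 < Q by omega)
  rw [fract_sub_fract] at hf
  set v := ((x : ℤ) - y : ℤ) * θ2 - ((⌊(x : ℝ) * θ2⌋ - ⌊(y : ℝ) * θ2⌋ : ℤ) : ℝ) with hv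
  set u := ((x : ℤ) - y : ℤ) * θ1 - ((-k : ℤ) : ℝ) with hu
  have hv' : |v| ≤ 2 * M / Q := by
    have hN : ((t - 1 : ℕ) : ℝ) = (t : ℝ) - 1 := by
      rw [Nat.cast_sub (by omega)]
      simp
    rw [hN] at hf
    have ht' : (4 : ℝ) ≤ t := by exact_mod_cast ht
    have htq2 : (Q : ℝ) ≤ M * ((t : ℝ) + 1) := by
      rw [hMdef]
      exact_mod_cast htM'.le
    have hge : (Q : ℝ) ≤ 2 * M * ((t : ℝ) - 1) := by
      linarith [mul_le_mul_of_nonneg_left (show (t : ℝ) + 1 ≤ 2 * ((t : ℝ) - 1) by linarith) hM0.le]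
    refine le_trans (le_of_eq (congrArg abs ?_)) (hf.trans ?_)
    · simp only [hv]
      push_cast
      ring
    · rw [div_le_div_iff₀ (by linarith) hQ0]
      linarith
  refine max_le ?_ (hv'.trans (by gcongr; linarith))
  have hk' : (a : ℝ) * x + c * ⌊(x : ℝ) * θ2⌋ - (a * y + c * ⌊(y : ℝ) * θ2⌋) = b * k := by
    exact_mod_cast hk
  have e : (b : ℝ) * u = (((x : ℤ) - y : ℤ) : ℝ) * lin θ1 θ2 a b c - c * v := by
    simp only [hu, hv, lin]
    push_cast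
    linear_combination -hk'
  have hd : |(((x : ℤ) - y : ℤ) : ℝ)| ≤ Q := by
    rw [abs_le]
    push_cast
    constructor <;> linarith [show (x : ℝ) ≤ Q from Nat.cast_le.2 (by omega),
      show (y : ℝ) ≤ Q from Nat.cast_le.2 (by omega), x.cast_nonneg (α := ℝ),
      y.cast_nonneg (α := ℝ)]
  have hbu : M * |u| ≤ Q * |lin θ1 θ2 a b c| + M * (2 * M / Q) := by
    rw [hM, ← abs_mul, e, ← hM]
    refine (abs_sub _ _).trans ?_
    rw [abs_mul, abs_mul]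
    exact add_le_add (mul_le_mul_of_nonneg_right hd (abs_nonneg _))
      (mul_le_mul hcM hv' (abs_nonneg _) hM0.le)
  have hQL' : (Q : ℝ) * |lin θ1 θ2 a b c| ≤ M * (M / Q) := by
    rw [mul_div, le_div_iff₀ hQ0]
    linarith
  refine le_of_mul_le_mul_left (hbu.trans ?_) hM0
  rw [show M * (3 * M / Q) = M * (M / Q) + M * (2 * M / Q) by ring]
  linarith

/-- **Pigeonhole orthogonally to a linear form.** -/
theorem exists_approx_of_form {θ1 θ2 : ℝ} {a b c : ℤ} {Q : ℕ} (hM : 1 ≤ height b c)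
    (hQ : 4 * height b c ≤ Q)
    (hQL : (Q : ℝ) ^ 2 * |lin θ1 θ2 a b c| ≤ (height b c : ℝ) ^ 2) :
    ∃ q, 1 ≤ q ∧ q ≤ Q ∧ serr θ1 θ2 q ≤ 3 * (height b c : ℝ) / Q := by
  rcases le_total c.natAbs b.natAbs with h | h
  · rw [height, max_eq_left h] at hM hQ hQL ⊢
    exact exists_approx_of_form_aux h hM hQ hQL
  · rw [height, max_eq_right h] at hM hQ hQL ⊢
    obtain ⟨q, h1, h2, h3⟩ := exists_approx_of_form_aux (θ1 := θ2) (θ2 := θ1) (a := a) h hM hQ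
      (by rwa [show lin θ2 θ1 a c b = lin θ1 θ2 a b c by unfold lin; ring])
    exact ⟨q, h1, h2, by rwa [serr_comm] at h3⟩

theorem expo_serr (θ1 θ2 : ℝ) {l : ℝ} (hl : l < 1 / 2) : Expo (serr θ1 θ2) l := by
  refine Expo.of_bound (C := 2) (D := 2) (e := 1 / 2) two_pos hl ?_
  filter_upwards [eventually_ge_atTop (1 : ℝ)] with X hX
  set n := ⌊Real.sqrt X⌋₊
  have hs : (1 : ℝ) ≤ Real.sqrt X := Real.one_le_sqrt.2 hX
  have hn : (n : ℝ) ≤ Real.sqrt X := Nat.floor_le (Real.sqrt_nonneg _)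
  have hn' : Real.sqrt X < n + 1 := Nat.lt_floor_add_one _
  have hn1 : 1 ≤ n := Nat.one_le_floor_iff _ |>.2 hs
  have hn1' : (1 : ℝ) ≤ n := by exact_mod_cast hn1
  obtain ⟨q, hq, hqn, he⟩ := dirichlet_simul θ1 θ2 hn1
  refine ⟨q, hq, ?_, he.trans ?_⟩
  · have : (q : ℝ) ≤ n * (n + 1) := by exact_mod_cast hqn
    nlinarith [Real.mul_self_sqrt (show (0 : ℝ) ≤ X by linarith),
      mul_le_mul hn hn (by linarith) (by linarith)]
  · rw [Real.rpow_neg (by linarith), ← Real.sqrt_eq_rpow, ← div_eq_mul_inv,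
      div_le_div_iff₀ (by linarith) (by linarith)]
    linarith

theorem expo_ferr (θ1 θ2 : ℝ) {w : ℝ} (hw : w < 2) : Expo (ferr θ1 θ2) w := by
  refine Expo.of_bound (C := 4) (D := 1) (e := 2) one_pos hw ?_
  filter_upwards [eventually_ge_atTop (1 : ℝ)] with X hX
  set n := ⌊X⌋₊
  have hn : (n : ℝ) ≤ X := Nat.floor_le (by linarith)
  have hn' : X < n + 1 := Nat.lt_floor_add_one _
  have hn1 : 1 ≤ n := Nat.one_le_floor_iff _ |>.2 hX
  have hn1' : (1 : ℝ) ≤ n := by exact_mod_cast hn1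
  obtain ⟨M, hM, hMn, he⟩ := dirichlet_form θ1 θ2 hn1
  refine ⟨M, hM, by linarith [show (M : ℝ) ≤ n from Nat.cast_le.2 hMn], he.trans ?_⟩
  rw [Real.rpow_neg (by linarith), show (2 : ℝ) = ((2 : ℕ) : ℝ) by norm_num, Real.rpow_natCast,
    ← div_eq_mul_inv, div_le_div_iff₀ (by positivity) (by positivity)]
  nlinarith

theorem small_serr (θ1 θ2 : ℝ) {v : ℝ} (hv : 0 < v) : ∃ q, 1 ≤ q ∧ serr θ1 θ2 q < v := by
  obtain ⟨n, hn⟩ := exists_nat_gt (1 / v)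
  have hn0 : (0 : ℝ) < n := (one_div_pos.2 hv).trans hn
  obtain ⟨q, hq, -, he⟩ := dirichlet_simul θ1 θ2 (n := n) (by exact_mod_cast hn0)
  exact ⟨q, hq, he.trans_lt ((one_div_lt hn0 hv).2 hn)⟩

theorem small_ferr (θ1 θ2 : ℝ) {v : ℝ} (hv : 0 < v) : ∃ q, 1 ≤ q ∧ ferr θ1 θ2 q < v := by
  obtain ⟨n, hn⟩ := exists_nat_gt (1 / v)
  have hn0 : (0 : ℝ) < n := (one_div_pos.2 hv).trans hn
  have hn1 : (1 : ℝ) ≤ n := by exact_mod_cast (show 0 < n by exact_mod_cast hn0)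
  obtain ⟨q, hq, -, he⟩ := dirichlet_form θ1 θ2 (n := n) (by exact_mod_cast hn0)
  refine ⟨q, hq, he.trans_lt (lt_of_le_of_lt ?_ ((one_div_lt hn0 hv).2 hn))⟩
  exact one_div_le_one_div_of_le hn0 (by nlinarith)

end FA.JarnikIdentity
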