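import Fermat.Agent.JarnikIdentity.Planes

/-!
# Jarník's identity

A uniform exponent `w ≥ 2` of the linear form gives every exponent below `1 - 1 / w` for the
approximations, and an exponent `l ≥ 1 / 2` of these gives every one below `1 / (1 - l)` for the
linear form.
-/

set_option autoImplicit false

noncomputable section

open Filter Topology
open FA.UniformSquare (cross dot)

namespace FA.JarnikIdentity

variable {θ1 θ2 : ℝ}

theorem nonempty_srecords (hθ : Indep θ1 θ2) : Nonempty (Records (serr θ1 θ2)) :=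
  exists_records (fun _ hq => serr_pos hθ hq) fun _ hv => small_serr θ1 θ2 hv

theorem nonempty_frecords (hθ : Indep θ1 θ2) : Nonempty (Records (ferr θ1 θ2)) :=
  exists_records (fun _ hq => ferr_pos hθ hq) fun _ hv => small_ferr θ1 θ2 hv

theorem serr_le_half (θ1 θ2 : ℝ) (q : ℕ) : serr θ1 θ2 q ≤ 1 / 2 :=
  max_le (abs_sub_round _) (abs_sub_round _)

/-- **From linear forms to simultaneous approximations.** -/
theorem expo_serr_of_expo_ferr (hθ : Indep θ1 θ2) {w : ℝ} (hw : 2 ≤ w)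
    (h : Expo (ferr θ1 θ2) w) {l : ℝ} (hl : l < 1 - 1 / w) : Expo (serr θ1 θ2) l := by
  obtain ⟨R⟩ := nonempty_frecords hθ
  obtain ⟨C, hC, K, hK⟩ := R.le_of_expo h
  have e1 : ∀ᶠ k in atTop, (5 : ℝ) ≤ (R.ht k : ℝ) := R.tendsto_ht.eventually_ge_atTop 5
  have e2 : ∀ᶠ k in atTop, C * (R.ht (k + 1) : ℝ) ^ (-(w - 1)) < 1 / 25 := by
    have hlim := (((tendsto_rpow_neg_atTop (by linarith : 0 < w - 1)).comp R.tendsto_ht).comp
      (tendsto_add_atTop_nat 1)).const_mul C
    rw [mul_zero] at hlim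
    exact hlim.eventually_lt_const (by norm_num)
  obtain ⟨K', hK'⟩ := eventually_atTop.1 ((e1.and e2).and (eventually_ge_atTop K))
  have hw0 : (0 : ℝ) < w := by linarith
  refine Expo.of_bound (C := 2 * C + 6 + 6 * Real.sqrt C) (D := 2) (e := 1 - 1 / w) two_pos hl ?_
  filter_upwards [R.exists_between hw0 K', eventually_ge_atTop (1 : ℝ)] with Y hY hY1
  obtain ⟨k, hk, hlo, hhi⟩ := hY
  obtain ⟨⟨h5, hsmall⟩, hkK⟩ := hK' k hk
  obtain ⟨a, b, c, hh, hL⟩ := exists_ferr_eq θ1 θ2 (R.ht k)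
  set M : ℝ := (R.ht k : ℝ) with hM
  set M' : ℝ := (R.ht (k + 1) : ℝ) with hM'
  set L := ferr θ1 θ2 (R.ht k) with hLdef
  have hMM : M ≤ M' := Nat.cast_le.2 (R.ht_mono (Nat.le_succ k))
  have hM'1 : 1 ≤ M' := R.one_le_real _
  have hY0 : (0 : ℝ) < Y := by linarith
  have hLpos : 0 < L := ferr_pos hθ (R.one_le k)
  have hLC : L ≤ C * M' ^ (-w) := hK k hkK
  have hLC' : M' * L ≤ C * M' ^ (-(w - 1)) := by
    calc M' * L ≤ M' * (C * M' ^ (-w)) := mul_le_mul_of_nonneg_left hLC (by linarith)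
      _ = C * M' ^ (-(w - 1)) := by
        rw [show -(w - 1) = 1 + -w by ring, Real.rpow_add (by linarith), Real.rpow_one]
        ring
  have hpos : 0 ≤ Y ^ (-(1 - 1 / w)) := Real.rpow_nonneg hY0.le _
  have hsq : 0 ≤ Real.sqrt C := Real.sqrt_nonneg C
  rcases le_or_gt (M' ^ 2) Y with hbig | hsm
  · -- the meet of two consecutive forms
    obtain ⟨a', b', c', hh', hL'⟩ := exists_ferr_eq θ1 θ2 (R.ht (k + 1))
    obtain ⟨q, hq, hqle, he⟩ := exists_meet (θ1 := θ1) (θ2 := θ2) (a := a) (b := b) (c := c)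
      (a' := a') (b' := b') (c' := c') (by rw [hh, hh']; exact R.mono (Nat.lt_succ_self k))
      (by rw [hL, hL']; exact R.decr k) (by rw [hh', ← hM', hL]; linarith)
    rw [hh, hh', ← hM, ← hM'] at hqle
    rw [hh', ← hM', hL] at he
    refine ⟨q, hq, hqle.trans ?_, ?_⟩
    · nlinarith
    · have : M' ^ (-(w - 1)) ≤ Y ^ (-(1 - 1 / w)) := by
        rw [show -(w - 1) = w * -(1 - 1 / w) by field_simp,
          Real.rpow_mul (by linarith)]
        exact Real.rpow_le_rpow_of_nonpos hY0 hhi (by linarith [(div_le_one hw0).2 (by linarith :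
          (1 : ℝ) ≤ w)])
      calc serr θ1 θ2 q ≤ 2 * M' * L := he
        _ ≤ 2 * C * M' ^ (-(w - 1)) := by linarith
        _ ≤ 2 * C * Y ^ (-(1 - 1 / w)) := by gcongr
        _ ≤ _ := mul_le_mul_of_nonneg_right (by linarith) hpos
  · -- the plane orthogonal to the form
    have hM0 : 0 < M := by linarith
    have hs0 : 0 < Real.sqrt L := Real.sqrt_pos.2 hLpos
    have hs5 : Real.sqrt L ≤ 1 / 5 := Real.sqrt_le_iff.2 ⟨by norm_num, by nlinarith⟩
    have hMsq : M ^ 2 ≤ Y := by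
      refine le_trans ?_ hlo.le
      rw [← Real.rpow_natCast]
      exact Real.rpow_le_rpow_of_exponent_le (by linarith) (by simpa using hw)
    set m := min Y (M / Real.sqrt L) with hm
    have hm5 : 5 * M ≤ m := le_min (by nlinarith) (by
      rw [le_div_iff₀ hs0]
      nlinarith)
    set Q := ⌊m⌋₊
    have hQm : (Q : ℝ) ≤ m := Nat.floor_le (by linarith)
    have hQm' : m < Q + 1 := Nat.lt_floor_add_one _
    have hQ4 : 4 * R.ht k ≤ Q := Nat.le_floor (by push_cast; linarith)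
    obtain ⟨q, hq, hqQ, he⟩ := exists_approx_of_form (θ1 := θ1) (θ2 := θ2) (a := a) (b := b)
      (c := c) (Q := Q) (hh ▸ R.one_le k) (hh ▸ hQ4) (by
        rw [hh, hL, ← hM, ← Real.sq_sqrt hLpos.le, ← mul_pow]
        refine pow_le_pow_left₀ (by positivity) ?_ 2
        rw [← le_div_iff₀ hs0]
        exact hQm.trans (min_le_right _ _))
    rw [hh, ← hM] at he
    refine ⟨q, hq, ?_, he.trans ?_⟩
    · linarith [show (q : ℝ) ≤ Q from Nat.cast_le.2 hqQ, min_le_left Y (M / Real.sqrt L)]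
    · have hA : M / Y ≤ Y ^ (-(1 - 1 / w)) := by
        have : M ≤ Y ^ (1 / w) := by
          calc M = (M ^ w) ^ (1 / w) := by
                rw [← Real.rpow_mul hM0.le, mul_one_div, div_self hw0.ne', Real.rpow_one]
            _ ≤ Y ^ (1 / w) := Real.rpow_le_rpow (Real.rpow_nonneg hM0.le _) hlo.le (by positivity)
        rw [div_le_iff₀ hY0, ← Real.rpow_add_one hY0.ne', show -(1 - 1 / w) + 1 = 1 / w by ring]
        exact this
      have hB : Real.sqrt L ≤ Real.sqrt C * Y ^ (-(1 - 1 / w)) := by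
        calc Real.sqrt L ≤ Real.sqrt (C * M' ^ (-w)) := Real.sqrt_le_sqrt hLC
          _ = Real.sqrt C * (M' ^ 2) ^ (-(w / 4)) := by
            rw [Real.sqrt_mul hC.le, Real.sqrt_eq_rpow (M' ^ (-w)), ← Real.rpow_natCast,
              ← Real.rpow_mul (by linarith), ← Real.rpow_mul (by linarith)]
            congr 2
            push_cast
            ring
          _ ≤ Real.sqrt C * Y ^ (-(w / 4)) := mul_le_mul_of_nonneg_left
            (Real.rpow_le_rpow_of_nonpos hY0 hsm.le (by linarith)) hsq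
          _ ≤ Real.sqrt C * Y ^ (-(1 - 1 / w)) := by
            refine mul_le_mul_of_nonneg_left (Real.rpow_le_rpow_of_exponent_le hY1
              (neg_le_neg ?_)) hsq
            rw [one_sub_div hw0.ne', div_le_div_iff₀ hw0 (by norm_num)]
            nlinarith [sq_nonneg (w - 2)]
      calc 3 * M / (Q : ℝ) ≤ 6 * (M / m) := by
            rw [mul_div, div_le_div_iff₀ (by linarith) (by linarith)]
            nlinarith
        _ ≤ 6 * (M / Y + Real.sqrt L) := by
            gcongr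
            rcases min_choice Y (M / Real.sqrt L) with e | e <;> rw [hm, e]
            · linarith
            · rw [div_div_cancel₀ hM0.ne']
              linarith [div_nonneg hM0.le hY0.le]
        _ ≤ (2 * C + 6 + 6 * Real.sqrt C) * Y ^ (-(1 - 1 / w)) := by
            nlinarith [mul_nonneg hC.le hpos]

/-- The volume of three records at a turn. -/
theorem det_bound (R : Records (serr θ1 θ2)) {l C : ℝ} (hC : 0 < C) {K e : ℕ}
    (hK : ∀ k, K ≤ k → serr θ1 θ2 (R.ht k) ≤ C * (R.ht (k + 1) : ℝ) ^ (-l)) (he : K ≤ e)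
    (hdet : dot (normal R e) (spoint θ1 θ2 (R.ht (e + 2))) ≠ 0) :
    (R.ht (e + 1) : ℝ) ^ l ≤ 6 * C ^ 2 * (R.ht (e + 2) : ℝ) ^ (1 - l) := by
  have h := abs_det_le (θ1 := θ1) (θ2 := θ2) (R.ht_mono (Nat.le_succ e))
    (R.ht_mono (Nat.le_succ (e + 1))) (R.decr e).le (R.decr (e + 1)).le
  have h1 : (1 : ℝ) ≤ |(dot (normal R e) (spoint θ1 θ2 (R.ht (e + 2))) : ℝ)| := by
    exact_mod_cast Int.one_le_abs hdet
  set p : ℝ := (R.ht (e + 1) : ℝ) with hp
  set r : ℝ := (R.ht (e + 2) : ℝ) with hr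
  have hp0 : 0 < p := R.ht_pos _
  have hr0 : 0 < r := R.ht_pos _
  have h2 : (1 : ℝ) ≤ 6 * r * (C * p ^ (-l)) * (C * r ^ (-l)) := by
    refine h1.trans (h.trans ?_)
    exact mul_le_mul (mul_le_mul_of_nonneg_left (hK e he) (by positivity)) (hK (e + 1) (by omega))
      (serr_nonneg _ _ _) (by positivity)
  rw [show 6 * r * (C * p ^ (-l)) * (C * r ^ (-l)) = 6 * C ^ 2 * (r ^ (1 - l)) / p ^ l by
    rw [show (1 : ℝ) - l = 1 + -l by ring, Real.rpow_add hr0, Real.rpow_one, Real.rpow_neg hp0.le]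
    ring, one_le_div (Real.rpow_pos_of_pos hp0 _)] at h2
  exact h2

/-- **From simultaneous approximations to linear forms.** -/
theorem expo_ferr_of_expo_serr (hθ : Indep θ1 θ2) {l : ℝ} (hl : 1 / 2 ≤ l) (hl1 : l < 1)
    (h : Expo (serr θ1 θ2) l) {w : ℝ} (hw : w < 1 / (1 - l)) : Expo (ferr θ1 θ2) w := by
  obtain ⟨R⟩ := nonempty_srecords hθ
  obtain ⟨C, hC, K, hK⟩ := R.le_of_expo h
  have hlim := R.tendsto_err (by linarith : (0 : ℝ) < l) h fun i => serr_nonneg _ _ _
  set w0 := 1 / (1 - l) with hw0def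
  have hs : 0 < 1 - l := by linarith
  have hw0 : 0 < w0 := one_div_pos.2 hs
  have hkey : -l = (1 - l) * -(w0 - 1) := by
    rw [hw0def]
    field_simp
    ring
  have hw1 : 0 ≤ w0 - 1 := by
    rw [hw0def, sub_nonneg, le_div_iff₀ hs]
    linarith
  refine Expo.of_bound (C := 16 * C + 2 * C ^ 2 * (6 * C ^ 2) ^ (w0 - 1) * 4 ^ w0)
    (D := 1 + 2 * C) (e := w0) (by linarith) hw ?_
  filter_upwards [R.exists_between hs (K + 1), eventually_ge_atTop (2 : ℝ)] with X hX hX2
  obtain ⟨k, hk, hlo, hhi⟩ := hX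
  obtain ⟨j, rfl⟩ : ∃ j, k = j + 1 := ⟨k - 1, by omega⟩
  have hX0 : (0 : ℝ) < X := by linarith
  have hpos : 0 ≤ X ^ (-w0) := Real.rpow_nonneg hX0.le _
  have hbig : 0 ≤ 2 * C ^ 2 * (6 * C ^ 2) ^ (w0 - 1) * (4 : ℝ) ^ w0 := by positivity
  set n := ⌊X⌋₊
  have hn : (n : ℝ) ≤ X := Nat.floor_le hX0.le
  have hn' : X < n + 1 := Nat.lt_floor_add_one _
  have hn2 : X / 2 ≤ n := by linarith
  set q := R.ht (j + 1) with hq
  rcases le_or_gt (4 * q) (n ^ 2) with hcase | hcase
  · obtain ⟨M, hM, hMn, he⟩ := exists_form_of_approx (θ1 := θ1) (θ2 := θ2)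
      (R.one_le (j + 1)) hcase (serr_pos hθ (R.one_le (j + 1))) (le_max_left _ _) (le_max_right _ _)
    refine ⟨M, hM, ?_, he.trans ?_⟩
    · nlinarith [show (M : ℝ) ≤ n from Nat.cast_le.2 hMn]
    · have hb : serr θ1 θ2 q ≤ C * X ^ (-(w0 - 1)) := by
        refine (hK (j + 1) (by omega)).trans (mul_le_mul_of_nonneg_left ?_ hC.le)
        rw [hkey, Real.rpow_mul (R.ht_pos _).le]
        exact Real.rpow_le_rpow_of_nonpos hX0 hhi (by linarith)
      calc 8 * serr θ1 θ2 q / (n : ℝ) ≤ 8 * (C * X ^ (-(w0 - 1))) / (X / 2) :=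
            div_le_div₀ (by positivity) (by linarith) (by linarith) hn2
        _ = 16 * C * X ^ (-w0) := by
            rw [show -(w0 - 1) = -w0 + 1 by ring, Real.rpow_add_one hX0.ne']
            field_simp
            ring
        _ ≤ _ := mul_le_mul_of_nonneg_right (by linarith) hpos
  · obtain ⟨e, hje, hdet, hcross⟩ := exists_turn hθ R hlim j
    obtain ⟨m, s, t, hs0, ht0, hj, he⟩ :=
      exists_common (normal_ne_zero R j) (normal_ne_zero R e) hcross
    obtain ⟨hb1, hb2, hb3⟩ := normal_bounds (θ1 := θ1) (θ2 := θ2) (R.ht_mono (Nat.le_succ j))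
      (R.decr j).le
    obtain ⟨-, -, hb4⟩ := normal_bounds (θ1 := θ1) (θ2 := θ2) (R.ht_mono (Nat.le_succ e))
      (R.decr e).le
    rw [← normal, hj] at hb1 hb2 hb3
    rw [← normal, he, linv_smul] at hb4
    have hs1 : (1 : ℝ) ≤ |(s : ℝ)| := by exact_mod_cast Int.one_le_abs hs0
    have ht1 : (1 : ℝ) ≤ |(t : ℝ)| := by exact_mod_cast Int.one_le_abs ht0
    have hbound : ∀ x : ℤ, |((s * x : ℤ) : ℝ)| ≤ 2 * (R.ht (j + 1) : ℝ) * serr θ1 θ2 (R.ht j) →
        |(x : ℝ)| ≤ 2 * C * X := fun x hx => by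
      rw [Int.cast_mul, abs_mul] at hx
      refine ((le_mul_of_one_le_left (abs_nonneg _) hs1).trans hx).trans ?_
      calc 2 * (R.ht (j + 1) : ℝ) * serr θ1 θ2 (R.ht j)
          ≤ 2 * (R.ht (j + 1) : ℝ) * (C * (R.ht (j + 1) : ℝ) ^ (-l)) :=
            mul_le_mul_of_nonneg_left (hK j (by omega)) (by positivity)
        _ = 2 * C * (R.ht (j + 1) : ℝ) ^ (1 - l) := by
            rw [show (1 : ℝ) - l = 1 + -l by ring, Real.rpow_add (R.ht_pos _), Real.rpow_one]
            ring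
        _ ≤ 2 * C * X := mul_le_mul_of_nonneg_left hlo.le (by positivity)
    refine ⟨height m.2.1 m.2.2, one_le_height ?_,
      (height_le (hbound _ hb1) (hbound _ hb2)).trans (by nlinarith),
      (ferr_le θ1 θ2 m.1 _ _).trans ?_⟩
    · -- `b = c = 0` is impossible
      by_contra! h0
      obtain ⟨h01, h02⟩ := h0
      simp only [linv, lin, h01, h02, mul_zero, Int.cast_zero, zero_mul, add_zero] at hb3
      have hlt : |((s * m.1 : ℤ) : ℝ)| < 1 := by
        refine hb3.trans_lt ?_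
        nlinarith [serr_le_half θ1 θ2 (R.ht j), serr_le_half θ1 θ2 (R.ht (j + 1)),
          serr_nonneg θ1 θ2 (R.ht j), serr_nonneg θ1 θ2 (R.ht (j + 1))]
      have h00 : s * m.1 = 0 := Int.abs_lt_one_iff.1 (by exact_mod_cast hlt)
      exact normal_ne_zero R j (by rw [hj, h00, h01, h02, mul_zero])
    · set p : ℝ := (R.ht (e + 1) : ℝ) with hp
      set r : ℝ := (R.ht (e + 2) : ℝ) with hr
      have hp0 : 0 < p := R.ht_pos _
      have hr0 : 0 < r := R.ht_pos _
      have h6 : 0 < 6 * C ^ 2 := by positivity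
      have hr' : r ^ (-l) ≤ (6 * C ^ 2) ^ (w0 - 1) * p ^ (l * -(w0 - 1)) := by
        have hdb := det_bound R hC hK (by omega) hdet
        rw [← hp, ← hr] at hdb
        calc r ^ (-l) = (r ^ (1 - l)) ^ (-(w0 - 1)) := by rw [hkey, Real.rpow_mul hr0.le]
          _ ≤ (p ^ l / (6 * C ^ 2)) ^ (-(w0 - 1)) := Real.rpow_le_rpow_of_nonpos
              (div_pos (Real.rpow_pos_of_pos hp0 _) h6)
              ((div_le_iff₀' h6).2 hdb) (by linarith)
          _ = _ := by
              rw [Real.div_rpow (Real.rpow_nonneg hp0.le _) h6.le, ← Real.rpow_mul hp0.le,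
                Real.rpow_neg h6.le, div_inv_eq_mul, mul_comm]
      have hXp : X ≤ 4 * p ^ l := by
        have h1 : (n : ℝ) ^ 2 ≤ 4 * q := by exact_mod_cast hcase.le
        have h2 : (q : ℝ) ≤ p := Nat.cast_le.2 (R.ht_mono (by omega))
        have h3 : Real.sqrt p ≤ p ^ l := by
          rw [Real.sqrt_eq_rpow]
          exact Real.rpow_le_rpow_of_exponent_le (R.one_le_real _) hl
        nlinarith [Real.sq_sqrt hp0.le, Real.sqrt_nonneg p]
      have hpw : p ^ (-(l * w0)) ≤ (4 : ℝ) ^ w0 * X ^ (-w0) := by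
        calc p ^ (-(l * w0)) = (p ^ l) ^ (-w0) := by rw [← Real.rpow_mul hp0.le, mul_neg]
          _ ≤ (X / 4) ^ (-w0) := Real.rpow_le_rpow_of_nonpos (by linarith) (by linarith)
              (by linarith)
          _ = _ := by
              rw [Real.div_rpow hX0.le (by norm_num), Real.rpow_neg (by norm_num : (0 : ℝ) ≤ 4),
                div_inv_eq_mul, mul_comm]
      rw [abs_mul] at hb4
      calc |lin θ1 θ2 m.1 m.2.1 m.2.2| ≤ 2 * serr θ1 θ2 (R.ht e) * serr θ1 θ2 (R.ht (e + 1)) :=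
            (le_mul_of_one_le_left (abs_nonneg _) ht1).trans hb4
        _ ≤ 2 * (C * p ^ (-l)) * (C * ((6 * C ^ 2) ^ (w0 - 1) * p ^ (l * -(w0 - 1)))) := by
            refine mul_le_mul (mul_le_mul_of_nonneg_left (hK e (by omega)) zero_le_two)
              ((hK (e + 1) (by omega)).trans (mul_le_mul_of_nonneg_left hr' hC.le))
              (serr_nonneg _ _ _) (by positivity)
        _ = 2 * C ^ 2 * (6 * C ^ 2) ^ (w0 - 1) * p ^ (-(l * w0)) := by
            rw [show -(l * w0) = -l + l * -(w0 - 1) by ring, Real.rpow_add hp0]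
            ring
        _ ≤ 2 * C ^ 2 * (6 * C ^ 2) ^ (w0 - 1) * ((4 : ℝ) ^ w0 * X ^ (-w0)) :=
            mul_le_mul_of_nonneg_left hpw (by positivity)
        _ ≤ _ := by
            rw [← mul_assoc]
            exact mul_le_mul_of_nonneg_right (by linarith) hpos

/-- No simultaneous exponent exceeds one. -/
theorem le_one_of_expo_serr (hθ : Indep θ1 θ2) {l : ℝ} (h : Expo (serr θ1 θ2) l) : l ≤ 1 := by
  by_contra! hl
  obtain ⟨R⟩ := nonempty_srecords hθ
  obtain ⟨C, hC, K, hK⟩ := R.le_of_expo h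
  have hlim := R.tendsto_err (by linarith : (0 : ℝ) < l) h fun i => serr_nonneg _ _ _
  have hsm := ((tendsto_rpow_neg_atTop (by linarith : 0 < l - 1)).comp R.tendsto_ht).const_mul
    (6 * C ^ 2)
  rw [mul_zero] at hsm
  obtain ⟨K', hK'⟩ := eventually_atTop.1
    ((hsm.eventually_lt_const one_pos).and (eventually_ge_atTop K))
  obtain ⟨e, he, hdet, -⟩ := exists_turn hθ R hlim K'
  have hdb := det_bound R hC hK (le_trans (hK' K' le_rfl).2 he) hdet
  have h1 := (hK' (e + 2) (by omega)).1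
  simp only [Function.comp_apply, neg_sub] at h1
  linarith [Real.one_le_rpow (R.one_le_real (e + 1)) (by linarith : (0 : ℝ) ≤ l)]

end FA.JarnikIdentity
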