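import Fermat.Agent.JarnikIdentity.Forms
import Fermat.Agent.UniformSquare.Main

/-!
# Planes through two approximations or two linear forms
-/

set_option autoImplicit false

noncomputable section

open Filter Topology
open FA.UniformSquare (cross dot dot_eq_zero_of_coplanar)

namespace FA.JarnikIdentity

/-- The best approximation with denominator `q`, as a point. -/
def spoint (θ1 θ2 : ℝ) (q : ℕ) : ℤ × ℤ × ℤ :=
  (q, round ((q : ℝ) * θ1), round ((q : ℝ) * θ2))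

/-- The linear form of a vector. -/
def linv (θ1 θ2 : ℝ) (n : ℤ × ℤ × ℤ) : ℝ := lin θ1 θ2 n.1 n.2.1 n.2.2

/-- Two linear forms meet in an approximation. -/
theorem exists_meet {θ1 θ2 : ℝ} {a b c a' b' c' : ℤ}
    (hM : height b c < height b' c') (hL : |lin θ1 θ2 a' b' c'| < |lin θ1 θ2 a b c|)
    (hsmall : 2 * (height b' c' : ℝ) * |lin θ1 θ2 a b c| < 1) :
    ∃ q : ℕ, 1 ≤ q ∧ (q : ℝ) ≤ 2 * height b c * height b' c' ∧
      serr θ1 θ2 q ≤ 2 * height b' c' * |lin θ1 θ2 a b c| := by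
  set L := lin θ1 θ2 a b c with hLdef
  set L' := lin θ1 θ2 a' b' c' with hLdef'
  set M : ℝ := (height b c : ℝ) with hMdef
  set M' : ℝ := (height b' c' : ℝ) with hMdef'
  obtain ⟨hb, hc⟩ := abs_le_height b c
  obtain ⟨hb', hc'⟩ := abs_le_height b' c'
  rw [← hMdef] at hb hc
  rw [← hMdef'] at hb' hc'
  have hMM : M ≤ M' := Nat.cast_le.2 hM.le
  have hM0 : 0 ≤ M := Nat.cast_nonneg _
  have key : ∀ {x x' : ℤ}, |(x : ℝ)| ≤ M → |(x' : ℝ)| ≤ M' → |x' * L - x * L'| ≤ 2 * M' * |L| :=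
    fun {x x'} hx hx' => by
      refine (abs_sub _ _).trans ?_
      rw [abs_mul, abs_mul, two_mul, add_mul]
      exact add_le_add (mul_le_mul_of_nonneg_right hx' (abs_nonneg _))
        (mul_le_mul (hx.trans hMM) hL.le (abs_nonneg _) (hM0.trans hMM))
  have e1 : ((b * c' - c * b' : ℤ) : ℝ) * θ1 - ((c * a' - a * c' : ℤ) : ℝ) = c' * L - c * L' := by
    simp only [hLdef, hLdef', lin]
    push_cast
    ring
  have e2 : ((b * c' - c * b' : ℤ) : ℝ) * θ2 - ((a * b' - b * a' : ℤ) : ℝ) =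
      -(b' * L - b * L') := by
    simp only [hLdef, hLdef', lin]
    push_cast
    ring
  have h1 := key hc hc'
  have h2 := key hb hb'
  refine ⟨(b * c' - c * b').natAbs, Int.natAbs_pos.2 fun h0 => ?_, ?_,
    (serr_le_max θ1 θ2 _ (c * a' - a * c') (a * b' - b * a')).trans
      (max_le (by rwa [e1]) (by rwa [e2, abs_neg]))⟩
  · -- otherwise the two forms are proportional
    rw [h0, Int.cast_zero, zero_mul, zero_sub] at e1 e2
    have z1 : c * a' - a * c' = 0 := Int.abs_lt_one_iff.1 (by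
      exact_mod_cast (show |((c * a' - a * c' : ℤ) : ℝ)| < 1 by
        rw [← abs_neg, e1]
        exact h1.trans_lt hsmall))
    have z2 : a * b' - b * a' = 0 := Int.abs_lt_one_iff.1 (by
      exact_mod_cast (show |((a * b' - b * a' : ℤ) : ℝ)| < 1 by
        rw [← abs_neg, e2, abs_neg]
        exact h2.trans_lt hsmall))
    rw [z1, Int.cast_zero, neg_zero] at e1
    rw [z2, Int.cast_zero, neg_zero] at e2
    have p1 : |(c : ℝ)| * |L'| = |(c' : ℝ)| * |L| := by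
      rw [← abs_mul, ← abs_mul, show (c : ℝ) * L' = c' * L by linarith]
    have p2 : |(b : ℝ)| * |L'| = |(b' : ℝ)| * |L| := by
      rw [← abs_mul, ← abs_mul, show (b : ℝ) * L' = b' * L by linarith]
    have hmax : M * |L'| = M' * |L| := by
      simp only [hMdef, hMdef', height, Nat.cast_max, Nat.cast_natAbs, Int.cast_abs]
      rw [max_mul_of_nonneg _ _ (abs_nonneg _), max_mul_of_nonneg _ _ (abs_nonneg _), p1, p2]
    have hlt : M < M' := Nat.cast_lt.2 hM
    nlinarith [abs_nonneg L, abs_nonneg L']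
  · rw [Nat.cast_natAbs, Int.cast_abs, Int.cast_sub, Int.cast_mul, Int.cast_mul]
    refine (abs_sub _ _).trans ?_
    rw [abs_mul, abs_mul, mul_assoc, two_mul]
    exact add_le_add (mul_le_mul hb hc' (abs_nonneg _) hM0)
      (mul_le_mul hc hb' (abs_nonneg _) hM0)

/-- The plane of two approximations. -/
theorem normal_bounds {θ1 θ2 : ℝ} {p q : ℕ} (hpq : p ≤ q)
    (he : serr θ1 θ2 q ≤ serr θ1 θ2 p) :
    |((cross (spoint θ1 θ2 p) (spoint θ1 θ2 q)).2.1 : ℝ)| ≤ 2 * q * serr θ1 θ2 p ∧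
    |((cross (spoint θ1 θ2 p) (spoint θ1 θ2 q)).2.2 : ℝ)| ≤ 2 * q * serr θ1 θ2 p ∧
    |linv θ1 θ2 (cross (spoint θ1 θ2 p) (spoint θ1 θ2 q))| ≤
      2 * serr θ1 θ2 p * serr θ1 θ2 q := by
  set Z := serr θ1 θ2 p
  set Z' := serr θ1 θ2 q
  set x1 := round ((p : ℝ) * θ1)
  set x2 := round ((p : ℝ) * θ2)
  set y1 := round ((q : ℝ) * θ1)
  set y2 := round ((q : ℝ) * θ2)
  have a1 : |(p : ℝ) * θ1 - x1| ≤ Z := le_max_left _ _
  have a2 : |(p : ℝ) * θ2 - x2| ≤ Z := le_max_right _ _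
  have b1 : |(q : ℝ) * θ1 - y1| ≤ Z' := le_max_left _ _
  have b2 : |(q : ℝ) * θ2 - y2| ≤ Z' := le_max_right _ _
  have hpq' : (p : ℝ) ≤ q := Nat.cast_le.2 hpq
  have hZ : 0 ≤ Z := serr_nonneg _ _ _
  have key : ∀ {u u' : ℝ}, |u| ≤ Z → |u'| ≤ Z' → |(p : ℝ) * u' - q * u| ≤ 2 * q * Z :=
    fun {u u'} hu hu' => by
      refine (abs_sub _ _).trans ?_
      rw [abs_mul, abs_mul, Nat.abs_cast, Nat.abs_cast, mul_assoc, two_mul]
      exact add_le_add (mul_le_mul hpq' (hu'.trans he) (abs_nonneg _) q.cast_nonneg)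
        (mul_le_mul_of_nonneg_left hu q.cast_nonneg)
  refine ⟨?_, ?_, ?_⟩
  · refine le_of_eq_of_le (congrArg abs ?_) (key a2 b2)
    simp only [spoint, cross, x2, y2]
    push_cast
    ring
  · refine le_of_eq_of_le (congrArg abs ?_) ((abs_sub_comm _ _).trans_le (key a1 b1))
    simp only [spoint, cross, x1, y1]
    push_cast
    ring
  · rw [show linv θ1 θ2 (cross (spoint θ1 θ2 p) (spoint θ1 θ2 q)) =
      ((p : ℝ) * θ1 - x1) * ((q : ℝ) * θ2 - y2) - ((p : ℝ) * θ2 - x2) * ((q : ℝ) * θ1 - y1) by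
        simp only [linv, lin, spoint, cross, x1, x2, y1, y2]
        push_cast
        ring]
    refine (abs_sub _ _).trans ?_
    rw [abs_mul, abs_mul, mul_assoc, two_mul]
    exact add_le_add (mul_le_mul a1 b2 (abs_nonneg _) hZ) (mul_le_mul a2 b1 (abs_nonneg _) hZ)

/-- The volume of three approximations. -/
theorem abs_det_le {θ1 θ2 : ℝ} {p q r : ℕ} (hpq : p ≤ q) (hqr : q ≤ r)
    (hpq' : serr θ1 θ2 q ≤ serr θ1 θ2 p) (hqr' : serr θ1 θ2 r ≤ serr θ1 θ2 q) :
    |(dot (cross (spoint θ1 θ2 p) (spoint θ1 θ2 q)) (spoint θ1 θ2 r) : ℝ)| ≤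
      6 * r * serr θ1 θ2 p * serr θ1 θ2 q := by
  obtain ⟨h1, h2, h3⟩ := normal_bounds (θ1 := θ1) (θ2 := θ2) hpq hpq'
  set n := cross (spoint θ1 θ2 p) (spoint θ1 θ2 q)
  have e : (dot n (spoint θ1 θ2 r) : ℝ) = (r : ℝ) * linv θ1 θ2 n -
      n.2.1 * ((r : ℝ) * θ1 - round ((r : ℝ) * θ1)) -
        n.2.2 * ((r : ℝ) * θ2 - round ((r : ℝ) * θ2)) := by
    simp only [dot, spoint, linv, lin]
    push_cast
    ring
  have hZ : 0 ≤ serr θ1 θ2 p := serr_nonneg _ _ _
  have hZ' : 0 ≤ serr θ1 θ2 q := serr_nonneg _ _ _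
  have hqr2 : (q : ℝ) ≤ r := Nat.cast_le.2 hqr
  have g1 : |(n.2.1 : ℝ) * ((r : ℝ) * θ1 - round ((r : ℝ) * θ1))| ≤
      2 * r * serr θ1 θ2 p * serr θ1 θ2 q := by
    rw [abs_mul]
    exact mul_le_mul (h1.trans (by gcongr)) ((le_max_left _ _).trans hqr') (abs_nonneg _)
      (by positivity)
  have g2 : |(n.2.2 : ℝ) * ((r : ℝ) * θ2 - round ((r : ℝ) * θ2))| ≤
      2 * r * serr θ1 θ2 p * serr θ1 θ2 q := by
    rw [abs_mul]
    exact mul_le_mul (h2.trans (by gcongr)) ((le_max_right _ _).trans hqr') (abs_nonneg _)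
      (by positivity)
  have g3 : |(r : ℝ) * linv θ1 θ2 n| ≤ 2 * r * serr θ1 θ2 p * serr θ1 θ2 q := by
    rw [abs_mul, Nat.abs_cast]
    exact (mul_le_mul_of_nonneg_left h3 r.cast_nonneg).trans_eq (by ring)
  rw [e]
  linarith [abs_sub ((r : ℝ) * linv θ1 θ2 n - n.2.1 * ((r : ℝ) * θ1 - round ((r : ℝ) * θ1)))
      (n.2.2 * ((r : ℝ) * θ2 - round ((r : ℝ) * θ2))),
    abs_sub ((r : ℝ) * linv θ1 θ2 n) (n.2.1 * ((r : ℝ) * θ1 - round ((r : ℝ) * θ1)))]

/-- Proportional integer vectors are multiples of one integer vector. -/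
theorem exists_common {n n' : ℤ × ℤ × ℤ} (hn : n ≠ (0, 0, 0)) (hn' : n' ≠ (0, 0, 0))
    (h : cross n n' = (0, 0, 0)) : ∃ m : ℤ × ℤ × ℤ, ∃ s t : ℤ, s ≠ 0 ∧ t ≠ 0 ∧
      n = (s * m.1, s * m.2.1, s * m.2.2) ∧ n' = (t * m.1, t * m.2.1, t * m.2.2) := by
  obtain ⟨a, b, c⟩ := n
  obtain ⟨a', b', c'⟩ := n'
  simp only [cross, ne_eq, Prod.mk.injEq] at h hn hn'
  obtain ⟨h1, h2, h3⟩ := h
  set g : ℤ := (Int.gcd a (Int.gcd b c : ℤ) : ℤ) with hg
  have hbc : ((Int.gcd b c : ℕ) : ℤ) = b * Int.gcdA b c + c * Int.gcdB b c := Int.gcd_eq_gcd_ab b c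
  have hbez : g = a * Int.gcdA a (Int.gcd b c : ℤ) +
      (b * Int.gcdA b c + c * Int.gcdB b c) * Int.gcdB a (Int.gcd b c : ℤ) := by
    rw [← hbc]
    exact Int.gcd_eq_gcd_ab _ _
  obtain ⟨A, hA⟩ : g ∣ a := Int.gcd_dvd_left _ _
  obtain ⟨B, hB⟩ : g ∣ b := (Int.gcd_dvd_right _ _).trans (Int.gcd_dvd_left _ _)
  obtain ⟨C, hC⟩ : g ∣ c := (Int.gcd_dvd_right _ _).trans (Int.gcd_dvd_right _ _)
  set x := Int.gcdA a (Int.gcd b c : ℤ)
  set y := Int.gcdA b c * Int.gcdB a (Int.gcd b c : ℤ)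
  set z := Int.gcdB b c * Int.gcdB a (Int.gcd b c : ℤ)
  have hbez' : g = a * x + b * y + c * z := by
    simp only [y, z]
    linear_combination hbez
  clear_value g x y z
  subst hA hB hC
  have hg0 : g ≠ 0 := by
    rintro rfl
    simp at hn
  have h1' : x * A + y * B + z * C = 1 := mul_left_cancel₀ hg0 (by linear_combination -hbez')
  have p1 : B * c' = C * b' := mul_left_cancel₀ hg0 (by linear_combination h1)
  have p2 : C * a' = A * c' := mul_left_cancel₀ hg0 (by linear_combination h2)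
  have p3 : A * b' = B * a' := mul_left_cancel₀ hg0 (by linear_combination h3)
  have q1 : a' = (x * a' + y * b' + z * c') * A := by
    linear_combination -a' * h1' - y * p3 + z * p2
  have q2 : b' = (x * a' + y * b' + z * c') * B := by
    linear_combination -b' * h1' + x * p3 - z * p1
  have q3 : c' = (x * a' + y * b' + z * c') * C := by
    linear_combination -c' * h1' - x * p2 + y * p1
  refine ⟨(A, B, C), g, x * a' + y * b' + z * c', hg0, fun h0 => hn' ?_, rfl, ?_⟩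
  · rw [h0, zero_mul] at q1 q2 q3
    exact ⟨q1, q2, q3⟩
  · exact Prod.ext q1 (Prod.ext q2 q3)

/-- The linear form of a vector, up to multiples. -/
theorem linv_smul (θ1 θ2 : ℝ) (s : ℤ) (m : ℤ × ℤ × ℤ) :
    linv θ1 θ2 (s * m.1, s * m.2.1, s * m.2.2) = s * linv θ1 θ2 m := by
  simp only [linv, lin]
  push_cast
  ring

theorem spoint_cross_ne_zero {θ1 θ2 : ℝ} {p q : ℕ} (hp : 1 ≤ p) (hpq : p < q)
    (he : serr θ1 θ2 q < serr θ1 θ2 p) :
    cross (spoint θ1 θ2 p) (spoint θ1 θ2 q) ≠ (0, 0, 0) := by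
  intro h
  simp only [cross, spoint, Prod.mk.injEq] at h
  obtain ⟨-, h2, h3⟩ := h
  have h2' : (round ((p : ℝ) * θ2) : ℝ) * (q : ℝ) - (p : ℝ) * round ((q : ℝ) * θ2) = 0 := by
    exact_mod_cast h2
  have h3' : (p : ℝ) * round ((q : ℝ) * θ1) - (round ((p : ℝ) * θ1) : ℝ) * (q : ℝ) = 0 := by
    exact_mod_cast h3
  have e1 : (p : ℝ) * ((q : ℝ) * θ1 - round ((q : ℝ) * θ1)) =
      (q : ℝ) * ((p : ℝ) * θ1 - round ((p : ℝ) * θ1)) := by linear_combination -h3'
  have e2 : (p : ℝ) * ((q : ℝ) * θ2 - round ((q : ℝ) * θ2)) =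
      (q : ℝ) * ((p : ℝ) * θ2 - round ((p : ℝ) * θ2)) := by linear_combination h2'
  have e : (p : ℝ) * serr θ1 θ2 q = (q : ℝ) * serr θ1 θ2 p := by
    rw [serr, serr, mul_max_of_nonneg _ _ p.cast_nonneg, mul_max_of_nonneg _ _ q.cast_nonneg]
    congr 1
    · simpa only [abs_mul, Nat.abs_cast] using congrArg abs e1
    · simpa only [abs_mul, Nat.abs_cast] using congrArg abs e2
  have hpq' : (p : ℝ) < q := Nat.cast_lt.2 hpq
  have hp' : (1 : ℝ) ≤ p := by exact_mod_cast hp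
  nlinarith [serr_nonneg θ1 θ2 q]

section

variable {θ1 θ2 : ℝ}

/-- The normal of the points `i`, `i + 1`. -/
def normal (R : Records (serr θ1 θ2)) (i : ℕ) : ℤ × ℤ × ℤ :=
  cross (spoint θ1 θ2 (R.ht i)) (spoint θ1 θ2 (R.ht (i + 1)))

theorem normal_ne_zero (R : Records (serr θ1 θ2)) (i : ℕ) : normal R i ≠ (0, 0, 0) :=
  spoint_cross_ne_zero (R.one_le i) (R.mono (Nat.lt_succ_self i)) (R.decr i)

/-- After each record the next change of plane. -/
theorem exists_turn (hθ : Indep θ1 θ2) (R : Records (serr θ1 θ2))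
    (hlim : Tendsto (fun i => serr θ1 θ2 (R.ht i)) atTop (𝓝 0)) (k : ℕ) :
    ∃ e, k ≤ e ∧ dot (normal R e) (spoint θ1 θ2 (R.ht (e + 2))) ≠ 0 ∧
      cross (normal R k) (normal R e) = (0, 0, 0) := by
  classical
  set n := normal R k with hn
  have step : ∀ j, (∀ i < j, dot (normal R (k + i)) (spoint θ1 θ2 (R.ht (k + i + 2))) = 0) →
      dot n (spoint θ1 θ2 (R.ht (k + j))) = 0 ∧
      dot n (spoint θ1 θ2 (R.ht (k + j + 1))) = 0 := by
    intro j
    induction j with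
    | zero =>
      intro _
      simp only [hn, normal, cross, dot, Nat.add_zero]
      constructor <;> ring
    | succ j ih =>
      intro h
      obtain ⟨h1, h2⟩ := ih fun i hi => h i (by omega)
      exact ⟨h2, dot_eq_zero_of_coplanar (normal_ne_zero R (k + j)) h1 h2 (h j (by omega))⟩
  have hex : ∃ j, dot (normal R (k + j)) (spoint θ1 θ2 (R.ht (k + j + 2))) ≠ 0 := by
    by_contra! hall
    have hz : linv θ1 θ2 n = 0 := by
      refine abs_nonpos_iff.1 (ge_of_tendsto (x := atTop)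
        (f := fun j => (|(n.2.1 : ℝ)| + |(n.2.2 : ℝ)|) * serr θ1 θ2 (R.ht (j + k))) ?_
        (Eventually.of_forall fun j => ?_))
      · simpa using ((hlim.comp (tendsto_add_atTop_nat k)).const_mul _)
      · have h := (step j fun i _ => hall i).1
        rw [add_comm k j] at h
        set q := R.ht (j + k)
        simp only [dot, spoint] at h
        have h' : (n.1 : ℝ) * (q : ℝ) + n.2.1 * (round ((q : ℝ) * θ1) : ℝ) +
            n.2.2 * (round ((q : ℝ) * θ2) : ℝ) = 0 := by exact_mod_cast h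
        have e : (q : ℝ) * linv θ1 θ2 n = n.2.1 * ((q : ℝ) * θ1 - round ((q : ℝ) * θ1)) +
            n.2.2 * ((q : ℝ) * θ2 - round ((q : ℝ) * θ2)) := by
          simp only [linv, lin]
          linear_combination h'
        refine le_trans (le_mul_of_one_le_left (abs_nonneg _) (R.one_le_real (j + k))) ?_
        rw [← Nat.abs_cast, ← abs_mul, e, add_mul]
        refine (abs_add_le _ _).trans ?_
        rw [abs_mul, abs_mul]
        exact add_le_add (mul_le_mul_of_nonneg_left (le_max_left _ _) (abs_nonneg _))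
          (mul_le_mul_of_nonneg_left (le_max_right _ _) (abs_nonneg _))
    obtain ⟨h0, h1, h2⟩ := hθ _ _ _ hz
    exact normal_ne_zero R k (Prod.ext h0 (Prod.ext h1 h2))
  refine ⟨k + Nat.find hex, Nat.le_add_right _ _, Nat.find_spec hex, ?_⟩
  obtain ⟨h1, h2⟩ := step (Nat.find hex) fun i hi => not_not.1 (Nat.find_min hex hi)
  generalize hx : spoint θ1 θ2 (R.ht (k + Nat.find hex)) = x at h1
  generalize hy : spoint θ1 θ2 (R.ht (k + Nat.find hex + 1)) = y at h2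
  rw [normal, hx, hy]
  obtain ⟨a, b, c⟩ := n
  obtain ⟨x0, x1, x2⟩ := x
  obtain ⟨y0, y1, y2⟩ := y
  simp only [dot, cross, Prod.mk.injEq] at h1 h2 ⊢
  refine ⟨?_, ?_, ?_⟩
  · linear_combination x0 * h2 - y0 * h1
  · linear_combination x1 * h2 - y1 * h1
  · linear_combination x2 * h2 - y2 * h1

end

end FA.JarnikIdentity
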