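import Mathlib.Analysis.SpecialFunctions.Pow.Real
import Mathlib.Analysis.SpecialFunctions.Pow.Asymptotics
import Mathlib.Data.Nat.Find
import Mathlib.Tactic

/-!
# Records and uniform exponents

For `f : ℕ → ℝ`, positive but with arbitrarily small values, the records are the successive heights
at which `f` gets smaller than before. `Expo f e` says that `e` is a uniform exponent of `f`.
-/

set_option autoImplicit false

noncomputable section

open Filter Topology

namespace FA.JarnikIdentity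

/-- `e` is a uniform exponent of `f`: eventually some height up to `X` gets `X ^ (-e)`. -/
def Expo (f : ℕ → ℝ) (e : ℝ) : Prop :=
  ∀ᶠ X : ℝ in atTop, ∃ q : ℕ, 1 ≤ q ∧ (q : ℝ) ≤ X ∧ f q ≤ X ^ (-e)

theorem Expo.mono {f : ℕ → ℝ} {e e' : ℝ} (h : Expo f e) (he : e' ≤ e) : Expo f e' := by
  filter_upwards [h, eventually_ge_atTop (1 : ℝ)] with X hX hX1
  obtain ⟨q, hq, hqX, hf⟩ := hX
  exact ⟨q, hq, hqX, hf.trans (Real.rpow_le_rpow_of_exponent_le hX1 (by linarith))⟩

/-- Constants do not matter to the exponents below. -/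
theorem Expo.of_bound {f : ℕ → ℝ} {e e' C D : ℝ} (hD : 0 < D) (he : e' < e)
    (h : ∀ᶠ X : ℝ in atTop, ∃ q : ℕ, 1 ≤ q ∧ (q : ℝ) ≤ D * X ∧ f q ≤ C * X ^ (-e)) :
    Expo f e' := by
  have hscale : Tendsto (fun X : ℝ => X / D) atTop atTop := tendsto_id.atTop_div_const hD
  have hsmall : ∀ᶠ X : ℝ in atTop, C * D ^ e * X ^ (-(e - e')) ≤ 1 :=
    (((tendsto_rpow_neg_atTop (sub_pos.2 he)).const_mul (C * D ^ e)).eventually_le_const
      (by simp))
  filter_upwards [hscale.eventually h, hsmall, eventually_gt_atTop (0 : ℝ)] with X hX hs hX0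
  obtain ⟨q, hq, hqX, hf⟩ := hX
  refine ⟨q, hq, by rwa [mul_div_cancel₀ _ hD.ne'] at hqX, hf.trans ?_⟩
  rw [Real.div_rpow hX0.le hD.le, Real.rpow_neg hD.le, div_inv_eq_mul]
  calc C * (X ^ (-e) * D ^ e) = C * D ^ e * X ^ (-(e - e')) * X ^ (-e') := by
        rw [mul_assoc (C * D ^ e), ← Real.rpow_add hX0, show -(e - e') + -e' = -e by ring]
        ring
    _ ≤ X ^ (-e') := mul_le_of_le_one_left (Real.rpow_nonneg hX0.le _) hs

/-- The successive records. -/
structure Records (f : ℕ → ℝ) where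
  /-- The height of the record. -/
  ht : ℕ → ℕ
  one_le : ∀ i, 1 ≤ ht i
  mono : StrictMono ht
  decr : ∀ i, f (ht (i + 1)) < f (ht i)
  best : ∀ i q, 1 ≤ q → q < ht (i + 1) → f (ht i) ≤ f q

theorem exists_records {f : ℕ → ℝ} (hpos : ∀ q, 1 ≤ q → 0 < f q)
    (hsmall : ∀ v : ℝ, 0 < v → ∃ q, 1 ≤ q ∧ f q < v) : Nonempty (Records f) := by
  classical
  have hex : ∀ q, ∃ r, 1 ≤ r ∧ f r < f (max q 1) := fun q =>
    hsmall _ (hpos _ (le_max_right _ _))
  let R : ℕ → ℕ := fun i => Nat.rec 1 (fun _ q => Nat.find (hex q)) i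
  have h1 : ∀ i, 1 ≤ R i := fun i => by
    cases i with
    | zero => exact le_rfl
    | succ i => exact (Nat.find_spec (hex (R i))).1
  have hd : ∀ i, f (R (i + 1)) < f (R i) := fun i =>
    (Nat.find_spec (hex (R i))).2.trans_eq (congrArg f (max_eq_left (h1 i)))
  have hb : ∀ i q, 1 ≤ q → q < R (i + 1) → f (R i) ≤ f q := fun i q hq hlt =>
    not_lt.1 fun h => Nat.find_min (hex (R i)) hlt
      ⟨hq, h.trans_eq (congrArg f (max_eq_left (h1 i)).symm)⟩
  refine ⟨⟨R, h1, strictMono_nat_of_lt_succ fun i => ?_, hd, hb⟩⟩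
  cases i with
  | zero => exact lt_of_le_of_ne (h1 1) fun h => (hd 0).ne (congrArg f h.symm)
  | succ i =>
    rcases lt_trichotomy (R (i + 2)) (R (i + 1)) with h | h | h
    · linarith [hb i _ (h1 (i + 2)) h, hd i, hd (i + 1)]
    · exact absurd (congrArg f h) (hd (i + 1)).ne
    · exact h

namespace Records

variable {f : ℕ → ℝ} (R : Records f)

theorem ht_mono {i j : ℕ} (h : i ≤ j) : R.ht i ≤ R.ht j := R.mono.monotone h

theorem anti {i j : ℕ} (h : i ≤ j) : f (R.ht j) ≤ f (R.ht i) :=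
  antitone_nat_of_succ_le (f := fun i => f (R.ht i)) (fun i => (R.decr i).le) h

theorem tendsto_ht : Tendsto (fun i => (R.ht i : ℝ)) atTop atTop :=
  tendsto_natCast_atTop_atTop.comp R.mono.tendsto_atTop

theorem one_le_real (i : ℕ) : (1 : ℝ) ≤ R.ht i := by exact_mod_cast R.one_le i

theorem ht_pos (i : ℕ) : (0 : ℝ) < R.ht i := one_pos.trans_le (R.one_le_real i)

/-- A uniform exponent bounds each record by the height of the next. -/
theorem le_of_expo {e : ℝ} (h : Expo f e) :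
    ∃ C : ℝ, 0 < C ∧ ∃ K : ℕ, ∀ k, K ≤ k → f (R.ht k) ≤ C * (R.ht (k + 1) : ℝ) ^ (-e) := by
  obtain ⟨X0, hX0⟩ := eventually_atTop.1 h
  obtain ⟨K, hK⟩ := eventually_atTop.1 (R.tendsto_ht.eventually_ge_atTop (2 * X0))
  refine ⟨(2 : ℝ) ^ e, Real.rpow_pos_of_pos two_pos _, K, fun k hk => ?_⟩
  obtain ⟨q, hq, hqX, hf⟩ := hX0 ((R.ht (k + 1) : ℝ) / 2) (by linarith [hK (k + 1) (by omega)])
  have hlt : q < R.ht (k + 1) := Nat.cast_lt.1 (hqX.trans_lt (half_lt_self (R.ht_pos _)))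
  refine (R.best k q hq hlt).trans (hf.trans_eq ?_)
  rw [Real.div_rpow (R.ht_pos _).le zero_le_two, Real.rpow_neg zero_le_two, div_inv_eq_mul,
    mul_comm]

/-- Each large number lies between powers of two consecutive records. -/
theorem exists_between {s : ℝ} (hs : 0 < s) (K : ℕ) :
    ∀ᶠ X : ℝ in atTop, ∃ k, K ≤ k ∧ (R.ht k : ℝ) ^ s < X ∧ X ≤ (R.ht (k + 1) : ℝ) ^ s := by
  classical
  filter_upwards [eventually_gt_atTop ((R.ht K : ℝ) ^ s)] with X hX
  have hex : ∃ j, X ≤ (R.ht (K + j + 1) : ℝ) ^ s :=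
    ((((tendsto_rpow_atTop hs).comp R.tendsto_ht).comp
      (tendsto_atTop_mono (fun j => show j ≤ K + j + 1 by omega) tendsto_id)).eventually_ge_atTop
        X).exists
  refine ⟨K + Nat.find hex, Nat.le_add_right _ _, ?_, Nat.find_spec hex⟩
  rcases h : Nat.find hex with _ | j
  · simpa using hX
  · exact not_le.1 (Nat.find_min hex (m := j) (by omega))

theorem tendsto_err {e : ℝ} (he : 0 < e) (h : Expo f e) (h0 : ∀ i, 0 ≤ f (R.ht i)) :
    Tendsto (fun i => f (R.ht i)) atTop (𝓝 0) := by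
  obtain ⟨C, -, K, hK⟩ := R.le_of_expo h
  have hlim := (((tendsto_rpow_neg_atTop he).comp R.tendsto_ht).comp
    (tendsto_add_atTop_nat 1)).const_mul C
  rw [mul_zero] at hlim
  exact squeeze_zero' (Eventually.of_forall h0) ((eventually_ge_atTop K).mono hK) hlim

end Records

end FA.JarnikIdentity
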